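import Fermat.Agent.S24.Degree
import Fermat.Agent.S24.A564.RHAssembly
import Fermat.Prelude.Def_AlgebraicCurve_IsCurveOver

/-!
# S17, package BR: the modular function field is a curve over `ℚ̄`

`IsCurveOver K F` and `Algebra.EssFiniteType K F` for every function field `F` that is finite over
`K(x)` for a transcendental `x` (`K` algebraically closed of characteristic zero), from the landed
S24 library (`Fermat/Agent/S24/A564`), and the two modular instances needed by `S17/Top.lean`
(via `S24.jBar_transcendental`, `S24.finiteDimensional_jBar`).
-/

set_option autoImplicit false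

open AlgebraicCurve IntermediateField ModularCurve

namespace Fermat.Agent.S17.BR

section Generic

variable {K F : Type*} [Field K] [Field F] [Algebra K F]

/-- A function field of one variable over an algebraically closed field of characteristic zero
is a curve in the sense of the prelude. -/
theorem isCurveOver_of_finite [IsAlgClosed K] [CharZero K] (x : F) (hx : Transcendental K x)
    [FiniteDimensional K⟮x⟯ F] : IsCurveOver K F where
  exists_divisor f _ := by
    classical
    obtain ⟨T, hT, hsum⟩ := Fermat.Agent.S24.A564.exists_finset_sum_ord_eq_zero x hx f
    refine ⟨Finsupp.onFinset T (fun v => v.ord f) (fun v hv => ?_), fun v => rfl, ?_⟩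
    · by_contra hvT
      exact hv (hT v hvT)
    · have hdeg : ∀ v : Place K F, v.deg = 1 := Fermat.Agent.S24.A564.deg_eq_one x hx
      have h1 : Divisor.degree (Finsupp.onFinset T (fun v => v.ord f) (fun v hv => by
          by_contra hvT
          exact hv (hT v hvT))) = ∑ v ∈ T, v.ord f := by
        unfold Divisor.degree
        rw [Finsupp.liftAddHom_apply, Finsupp.sum]
        have hsub : (Finsupp.onFinset T (fun v => v.ord f) (fun v hv => by
            by_contra hvT
            exact hv (hT v hvT))).support ⊆ T := Finsupp.support_onFinset_subset
        rw [Finset.sum_subset hsub (fun v _ hv => by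
          rw [Finsupp.notMem_support_iff] at hv
          simp [hv])]
        refine Finset.sum_congr rfl fun v _ => ?_
        simp [hdeg v]
      rw [h1, hsum]
  finiteResidue v := by
    obtain ⟨_, hres⟩ := Fermat.Agent.S24.A564.local_facts x hx v
    exact Module.Finite.of_surjective (Algebra.linearMap K v.ResidueField) hres
  kaehler_free_rank_one :=
    ⟨Module.Free.of_divisionRing F _, Fermat.Agent.S24.A564.KR.finrank_kaehler x hx⟩

end Generic

/-- Package BR, first stub of `S17/Top.lean`. -/
theorem isCurveOver_modular (N : ℕ) [NeZero N] :
    IsCurveOver (AlgebraicClosure ℚ)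
      ↥(laurentBaseChange (AlgebraicClosure ℚ) (modularFunctionFieldFull N)) := by
  haveI := Fermat.Agent.S24.finiteDimensional_jBar N
  exact isCurveOver_of_finite (Fermat.Agent.S24.jBar N) (Fermat.Agent.S24.jBar_transcendental N)

/-- Package BR, second stub of `S17/Top.lean`. -/
theorem essFiniteType_modular (N : ℕ) [NeZero N] :
    Algebra.EssFiniteType (AlgebraicClosure ℚ)
      ↥(laurentBaseChange (AlgebraicClosure ℚ) (modularFunctionFieldFull N)) := by
  haveI := Fermat.Agent.S24.finiteDimensional_jBar N
  exact Fermat.Agent.S24.A564.essFiniteType_of_finite (Fermat.Agent.S24.jBar N)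

end Fermat.Agent.S17.BR
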