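import Fermat.Agent.S24.A564.RHAssembly
import Fermat.Prelude.Def_ModularCurve_ArithmeticGalois
import Fermat.Prelude.Def_AlgebraicCurve_IsCurveOver

/-!
# S17 package BR (helper1236): the arithmetic Galois action has open stabilisers

"Open subgroup of `G_ℚ`" is encoded as `K.fixingSubgroup` for an intermediate field
`K : IntermediateField ℚ ℚ̄` with `FiniteDimensional ℚ K`.  For every `F₀ ⊆ ℚ((q))`:
* `exists_fixing_elem F₀ f`   : every `f : FBar F₀` is fixed by an open subgroup (no hypothesis);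
and under `[IsCurveOver ℚ̄ (FBar F₀)] [Algebra.EssFiniteType ℚ̄ (FBar F₀)]`:
* `exists_rational_transcendental` : some `y` coming from `F₀` (hence fixed by all of `G_ℚ`) is
  transcendental over `ℚ̄` and `FBar F₀` is finite over `ℚ̄(y)`;
* `exists_fixing_place`, `exists_fixing_divisor`, `exists_fixing_pic0`,
  `exists_fixing_pic0_finite` : places, divisors, classes of `Pic⁰` and finite sets of classes
  are fixed by an open subgroup.
Generic tools: `exists_fixing_finset`, `exists_fixing_and`, `exists_fixing_const`,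
`exists_separating_data` (a place is cut out of a finite fibre by finitely many functions),
`t0_exists_transcendental_finiteDimensional` (argument of helper5774, S27 leaf T0).
Imports: Mathlib + Prelude + landed S24 (`A564/RHAssembly`).
-/

set_option autoImplicit false

open ModularCurve AlgebraicCurve IntermediateField

namespace Fermat.Agent.S17.BR.H1236

local notation "Qb" => AlgebraicClosure ℚ
local notation "GQ" => (AlgebraicClosure ℚ ≃ₐ[ℚ] AlgebraicClosure ℚ)

section T0

/-! ### `IsCurveOver` + essentially of finite type ⟹ finite over `K(x)`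
(argument of helper5774, S27 leaf T0, repeated here so that BR only depends on landed files) -/

open KaehlerDifferential TensorProduct
open scoped IntermediateField.algebraAdjoinAdjoin

variable {K F : Type*} [Field K] [Field F] [Algebra K F]

theorem t0_formallyEtale_aeval {ι : Type*} {v : ι → F} (hb : AlgebraicIndependent K v)
    [Algebra.IsSeparable (IntermediateField.adjoin K (Set.range v)) F] :
    ((MvPolynomial.aeval v : MvPolynomial ι K →ₐ[K] F) : MvPolynomial ι K →+* F).FormallyEtale := by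
  have h1 : (hb.aevalEquiv : MvPolynomial ι K →+* Algebra.adjoin K (Set.range v)).FormallyEtale := by
    unfold RingHom.FormallyEtale
    let _ : Algebra (MvPolynomial ι K) (Algebra.adjoin K (Set.range v)) :=
      (hb.aevalEquiv : MvPolynomial ι K →+* Algebra.adjoin K (Set.range v)).toAlgebra
    let e : MvPolynomial ι K ≃ₐ[MvPolynomial ι K] Algebra.adjoin K (Set.range v) :=
      AlgEquiv.ofRingEquiv (f := hb.aevalEquiv.toRingEquiv) (fun x => rfl)
    exact Algebra.FormallyEtale.of_equiv e
  have h2 : (algebraMap (Algebra.adjoin K (Set.range v))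
      (IntermediateField.adjoin K (Set.range v))).FormallyEtale :=
    RingHom.formallyEtale_algebraMap.mpr
      (Algebra.FormallyEtale.of_isLocalization (nonZeroDivisors (Algebra.adjoin K (Set.range v))))
  have h3 : (algebraMap (IntermediateField.adjoin K (Set.range v)) F).FormallyEtale :=
    RingHom.formallyEtale_algebraMap.mpr (Algebra.FormallyEtale.of_isSeparable _ F)
  have h := (h1.comp h2).comp h3
  convert h using 1
  ext p
  · simp
  · simp

theorem t0_nonempty_basis_kaehler {ι : Type*} {v : ι → F} (hb : AlgebraicIndependent K v)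
    [Algebra.IsSeparable (IntermediateField.adjoin K (Set.range v)) F] :
    Nonempty (Module.Basis ι F Ω[F⁄K]) := by
  have hf := t0_formallyEtale_aeval hb
  let _ : Algebra (MvPolynomial ι K) F :=
    ((MvPolynomial.aeval v : MvPolynomial ι K →ₐ[K] F) : MvPolynomial ι K →+* F).toAlgebra
  have : IsScalarTower K (MvPolynomial ι K) F :=
    IsScalarTower.of_algebraMap_eq (fun c => by
      simp [RingHom.algebraMap_toAlgebra])
  have : Algebra.FormallyEtale (MvPolynomial ι K) F := hf
  exact ⟨((mvPolynomialBasis K ι).baseChange F).map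
    (tensorKaehlerEquivOfFormallyEtale K (MvPolynomial ι K) F)⟩

theorem t0_exists_transcendental_finiteDimensional [CharZero K] [Algebra.EssFiniteType K F]
    (h : Module.finrank F Ω[F⁄K] = 1) :
    ∃ x : F, Transcendental K x ∧ FiniteDimensional K⟮x⟯ F := by
  obtain ⟨s, hs, hsep⟩ := exists_isTranscendenceBasis_and_isSeparable_of_perfectField K F
  have hsep' : Algebra.IsSeparable (IntermediateField.adjoin K (Set.range ((↑) : s → F))) F := by
    convert! hsep <;> simp
  obtain ⟨b⟩ := t0_nonempty_basis_kaehler hs.1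
  have hcard : Module.finrank F Ω[F⁄K] = Fintype.card s := Module.finrank_eq_card_basis b
  rw [h] at hcard
  obtain ⟨x, hx⟩ := Finset.card_eq_one.mp (by simpa using hcard.symm)
  subst hx
  refine ⟨x, ?_, ?_⟩
  · have hxmem : x ∈ ({x} : Finset F) := by simp
    exact hs.1.transcendental ⟨x, hxmem⟩
  · have hsep2 : Algebra.IsSeparable K⟮x⟯ F := by
      convert! hsep <;> simp
    have : Algebra.IsAlgebraic K⟮x⟯ F := Algebra.IsSeparable.isAlgebraic _ _
    have : Algebra.EssFiniteType K⟮x⟯ F := Algebra.EssFiniteType.of_comp K K⟮x⟯ F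
    exact Algebra.finite_of_essFiniteType_of_isAlgebraic

end T0

section Open

/-- "Open subgroup" bookkeeping: finitely many conditions, each valid on the fixing subgroup of
a finite extension of `ℚ`, are simultaneously valid on the fixing subgroup of one finite
extension. -/
theorem exists_fixing_finset {α : Type*} (T : Finset α) (P : α → GQ → Prop)
    (h : ∀ t ∈ T, ∃ K : IntermediateField ℚ Qb, FiniteDimensional ℚ K ∧
      ∀ σ ∈ K.fixingSubgroup, P t σ) :
    ∃ K : IntermediateField ℚ Qb, FiniteDimensional ℚ K ∧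
      ∀ σ ∈ K.fixingSubgroup, ∀ t ∈ T, P t σ := by
  classical
  induction T using Finset.induction_on with
  | empty => exact ⟨⊥, inferInstance, fun σ _ t ht => absurd ht (Finset.notMem_empty t)⟩
  | insert a T _ ih =>
    obtain ⟨K₁, hK₁, h₁⟩ := h a (Finset.mem_insert_self a T)
    obtain ⟨K₂, hK₂, h₂⟩ := ih fun t ht => h t (Finset.mem_insert_of_mem ht)
    refine ⟨K₁ ⊔ K₂, IntermediateField.finiteDimensional_sup K₁ K₂, fun σ hσ t ht => ?_⟩
    have hσ₁ : σ ∈ K₁.fixingSubgroup := by
      rw [IntermediateField.mem_fixingSubgroup_iff] at hσ ⊢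
      exact fun x hx => hσ x ((le_sup_left : K₁ ≤ K₁ ⊔ K₂) hx)
    have hσ₂ : σ ∈ K₂.fixingSubgroup := by
      rw [IntermediateField.mem_fixingSubgroup_iff] at hσ ⊢
      exact fun x hx => hσ x ((le_sup_right : K₂ ≤ K₁ ⊔ K₂) hx)
    rcases Finset.mem_insert.mp ht with rfl | ht
    · exact h₁ σ hσ₁
    · exact h₂ σ hσ₂ t ht

theorem exists_fixing_and {P Q : GQ → Prop}
    (hP : ∃ K : IntermediateField ℚ Qb, FiniteDimensional ℚ K ∧ ∀ σ ∈ K.fixingSubgroup, P σ)
    (hQ : ∃ K : IntermediateField ℚ Qb, FiniteDimensional ℚ K ∧ ∀ σ ∈ K.fixingSubgroup, Q σ) :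
    ∃ K : IntermediateField ℚ Qb, FiniteDimensional ℚ K ∧
      ∀ σ ∈ K.fixingSubgroup, P σ ∧ Q σ := by
  obtain ⟨K₁, hK₁, h₁⟩ := hP
  obtain ⟨K₂, hK₂, h₂⟩ := hQ
  refine ⟨K₁ ⊔ K₂, IntermediateField.finiteDimensional_sup K₁ K₂, fun σ hσ => ⟨h₁ σ ?_, h₂ σ ?_⟩⟩
  · rw [IntermediateField.mem_fixingSubgroup_iff] at hσ ⊢
    exact fun x hx => hσ x ((le_sup_left : K₁ ≤ K₁ ⊔ K₂) hx)
  · rw [IntermediateField.mem_fixingSubgroup_iff] at hσ ⊢
    exact fun x hx => hσ x ((le_sup_right : K₂ ≤ K₁ ⊔ K₂) hx)

/-- Every algebraic number is fixed by an open subgroup. -/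
theorem exists_fixing_const (c : Qb) :
    ∃ K : IntermediateField ℚ Qb, FiniteDimensional ℚ K ∧ ∀ σ ∈ K.fixingSubgroup, σ c = c := by
  have hc : IsIntegral ℚ c := (AlgebraicClosure.isAlgebraic ℚ).isIntegral.isIntegral c
  refine ⟨ℚ⟮c⟯, IntermediateField.adjoin.finiteDimensional hc, fun σ hσ => ?_⟩
  rw [IntermediateField.mem_fixingSubgroup_iff] at hσ
  exact hσ c (IntermediateField.mem_adjoin_simple_self ℚ c)

end Open

section Elements

variable (F₀ : IntermediateField ℚ (LaurentSeries ℚ))

theorem arithmeticGalois_smul_def (σ : GQ) (f : ↥(laurentBaseChange Qb F₀)) :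
    arithmeticGalois F₀ σ • f = arithmeticRingAut F₀ σ f := rfl

theorem arithmeticGalois_smul_algebraMap (σ : GQ) (c : Qb) :
    arithmeticGalois F₀ σ • algebraMap Qb ↥(laurentBaseChange Qb F₀) c
      = algebraMap Qb ↥(laurentBaseChange Qb F₀) (σ c) :=
  arithmeticRingAut_algebraMap F₀ σ c

/-- Rational elements (images of `F₀`) are fixed by the whole Galois group. -/
theorem arithmeticGalois_smul_coeffEmb (σ : GQ) {x : LaurentSeries ℚ} (hx : x ∈ F₀) :
    arithmeticGalois F₀ σ • (⟨coeffEmb Qb x, coeffEmb_mem_laurentBaseChange Qb hx⟩ :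
      ↥(laurentBaseChange Qb F₀)) = ⟨coeffEmb Qb x, coeffEmb_mem_laurentBaseChange Qb hx⟩ :=
  Subtype.ext (coeffMap_coeffEmb σ x)

/-- Every element of the function field over `ℚ̄` is fixed by an open subgroup of `G_ℚ`. -/
theorem exists_fixing_elem (f : ↥(laurentBaseChange Qb F₀)) :
    ∃ K : IntermediateField ℚ Qb, FiniteDimensional ℚ K ∧
      ∀ σ ∈ K.fixingSubgroup, arithmeticGalois F₀ σ • f = f := by
  suffices H : ∀ x : LaurentSeries Qb, x ∈ laurentBaseChange Qb F₀ →
      ∃ K : IntermediateField ℚ Qb, FiniteDimensional ℚ K ∧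
        ∀ σ ∈ K.fixingSubgroup, coeffMap ((σ : GQ) : Qb →+* Qb) x = x by
    obtain ⟨K, hK, h⟩ := H f f.2
    exact ⟨K, hK, fun σ hσ => Subtype.ext (h σ hσ)⟩
  intro x hx
  rw [mem_laurentBaseChange_iff] at hx
  induction hx using Subfield.closure_induction with
  | mem y hy =>
    rcases hy with ⟨a, rfl⟩ | ⟨z, hz, rfl⟩
    · obtain ⟨K, hK, h⟩ := exists_fixing_const a
      refine ⟨K, hK, fun σ hσ => ?_⟩
      rw [coeffMap_algebraMap]
      exact congrArg _ (h σ hσ)
    · exact ⟨⊥, inferInstance, fun σ _ => coeffMap_coeffEmb σ z⟩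
  | one => exact ⟨⊥, inferInstance, fun σ _ => map_one _⟩
  | add x y _ _ hx hy =>
    obtain ⟨K, hK, h⟩ := exists_fixing_and hx hy
    exact ⟨K, hK, fun σ hσ => by rw [map_add, (h σ hσ).1, (h σ hσ).2]⟩
  | neg x _ hx =>
    obtain ⟨K, hK, h⟩ := hx
    exact ⟨K, hK, fun σ hσ => by rw [map_neg, h σ hσ]⟩
  | inv x _ hx =>
    obtain ⟨K, hK, h⟩ := hx
    exact ⟨K, hK, fun σ hσ => by rw [map_inv₀, h σ hσ]⟩
  | mul x y _ _ hx hy =>
    obtain ⟨K, hK, h⟩ := exists_fixing_and hx hy
    exact ⟨K, hK, fun σ hσ => by rw [map_mul, (h σ hσ).1, (h σ hσ).2]⟩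

end Elements

section GenericPlace

variable {K F : Type*} [Field K] [Field F] [Algebra K F]

theorem smul_mem_smul_place (g : SemilinearAut K F) (v : Place K F) {f : F}
    (hf : f ∈ v.toValuationSubring) : g • f ∈ (g • v).toValuationSubring :=
  ValuationSubring.smul_mem_pointwise_smul g f v.toValuationSubring hf

/-- Core of the stabiliser argument: a place `v` at which `y` is integral is determined, among
the finitely many places with the same value `c = y(v)`, by finitely many separating functions;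
a semilinear automorphism fixing `y`, `c` and those functions fixes `v`. -/
theorem exists_separating_data [IsAlgClosed K] [CharZero K] (y : F) (hy : Transcendental K y)
    [FiniteDimensional K⟮y⟯ F] (v : Place K F) (hyv : y ∈ v.toValuationSubring) :
    ∃ (c : K) (Z : Finset (Place K F)) (fs : Place K F → F),
      (∀ w ∈ Z, w ≠ v → fs w ∈ v.toValuationSubring ∧ fs w ∉ w.toValuationSubring) ∧
      ∀ g : SemilinearAut K F, g • y = y → SemilinearAut.baseAut g c = c →
        (∀ w ∈ Z, w ≠ v → g • fs w = fs w) → g • v = v := by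
  classical
  obtain ⟨c, hc⟩ := Fermat.Agent.S24.A564.exists_const_ord_pos y hy v
    (Fermat.Agent.S24.A564.SO.Place_ord_nonneg_of_mem v hyv)
  obtain ⟨Z, hZ, -⟩ := Fermat.Agent.S24.A564.zeros_sum_of_adjoin_eq (y - algebraMap K F c)
    (Fermat.Agent.S24.A564.transcendental_sub_const hy c) K⟮y⟯
    (Fermat.Agent.S24.A564.adjoin_simple_sub_const y c)
  have hsep : ∀ w : Place K F, w ≠ v → ∃ f : F,
      f ∈ v.toValuationSubring ∧ f ∉ w.toValuationSubring := by
    intro w hwv
    by_contra hcon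
    push Not at hcon
    exact hwv (Place.ext (ValuationSubring.eq_of_le_of_ne_top _ hcon w.ne_top')).symm
  let fs : Place K F → F := fun w => if h : w ≠ v then (hsep w h).choose else 0
  have hfs : ∀ w, w ≠ v → fs w ∈ v.toValuationSubring ∧ fs w ∉ w.toValuationSubring := by
    intro w h
    simp only [fs, dif_pos h]
    exact (hsep w h).choose_spec
  refine ⟨c, Z, fs, fun w _ h => hfs w h, fun g hgy hgc hgf => ?_⟩
  have hgt : g • (y - algebraMap K F c) = y - algebraMap K F c := by
    rw [smul_sub, hgy, SemilinearAut.smul_algebraMap, hgc]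
  have hmem : g • v ∈ Z := by
    rw [hZ]
    have := SemilinearAut.ord_smul g v (y - algebraMap K F c)
    rw [hgt] at this
    rw [this]
    exact hc
  by_contra hne
  have h1 := smul_mem_smul_place g v (hfs (g • v) hne).1
  rw [hgf (g • v) hmem hne] at h1
  exact (hfs (g • v) hne).2 h1

theorem smul_divisor_eq_self (g : SemilinearAut K F) (D : Divisor K F)
    (h : ∀ v ∈ D.support, g • v = v) : g • D = D := by
  rw [SemilinearAut.divisor_smul_def]
  conv_rhs => rw [← Finsupp.mapDomain_id (v := D)]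
  exact Finsupp.mapDomain_congr fun v hv => h v hv

theorem smul_pic0_mk_eq_self (g : SemilinearAut K F) (D : Divisor.degZero (K := K) (F := F))
    (h : g • (D : Divisor K F) = D) : g • Pic0.mk D = Pic0.mk D := by
  rw [SemilinearAut.pic0_smul_mk]
  exact congrArg Pic0.mk (Subtype.ext h)

end GenericPlace

section Places

variable (F₀ : IntermediateField ℚ (LaurentSeries ℚ))
variable [IsCurveOver Qb ↥(laurentBaseChange Qb F₀)]
  [Algebra.EssFiniteType Qb ↥(laurentBaseChange Qb F₀)]

/-- There is a rational (i.e. coming from `F₀`) element which is transcendental over `ℚ̄`. -/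
theorem exists_rational_transcendental :
    ∃ y : ↥(laurentBaseChange Qb F₀), Transcendental Qb y ∧
      FiniteDimensional Qb⟮y⟯ ↥(laurentBaseChange Qb F₀) ∧
      ∀ σ : GQ, arithmeticGalois F₀ σ • y = y := by
  obtain ⟨x', hx', hfin⟩ := t0_exists_transcendental_finiteDimensional
    (K := Qb) (F := ↥(laurentBaseChange Qb F₀)) IsCurveOver.finrank_kaehler
  by_contra hcon
  -- all rational elements are algebraic
  have hall : ∀ z ∈ (⇑(coeffEmb Qb) '' (F₀ : Set (LaurentSeries ℚ))), IsIntegral Qb z := by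
    rintro _ ⟨x₀, hx₀, rfl⟩
    by_contra hz
    apply hcon
    have ht : Transcendental Qb (⟨coeffEmb Qb x₀, coeffEmb_mem_laurentBaseChange Qb hx₀⟩ :
        ↥(laurentBaseChange Qb F₀)) := by
      intro halg
      apply hz
      have h2 : IsAlgebraic Qb (algebraMap ↥(laurentBaseChange Qb F₀) (LaurentSeries Qb)
          ⟨coeffEmb Qb x₀, coeffEmb_mem_laurentBaseChange Qb hx₀⟩) :=
        halg.algebraMap
      exact h2.isIntegral
    have := hfin
    exact ⟨_, ht, Fermat.Agent.S24.A564.finiteDimensional_adjoin_of_transcendental x' _ hx' ht,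
      fun σ => arithmeticGalois_smul_coeffEmb F₀ σ hx₀⟩
  have halg : Algebra.IsAlgebraic Qb ↥(laurentBaseChange Qb F₀) :=
    IntermediateField.isAlgebraic_adjoin hall
  exact hx' (Algebra.IsAlgebraic.isAlgebraic x')

/-- Every place of the function field over `ℚ̄` is fixed by an open subgroup of `G_ℚ`. -/
theorem exists_fixing_place (v : Place Qb ↥(laurentBaseChange Qb F₀)) :
    ∃ K : IntermediateField ℚ Qb, FiniteDimensional ℚ K ∧
      ∀ σ ∈ K.fixingSubgroup, arithmeticGalois F₀ σ • v = v := by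
  classical
  obtain ⟨y₀, hy₀, hfin₀, hfix₀⟩ := exists_rational_transcendental F₀
  -- a rational transcendental element which is integral at `v`
  obtain ⟨y, hy, hfin, hfix, hyv⟩ : ∃ y : ↥(laurentBaseChange Qb F₀), Transcendental Qb y ∧
      FiniteDimensional Qb⟮y⟯ ↥(laurentBaseChange Qb F₀) ∧
      (∀ σ : GQ, arithmeticGalois F₀ σ • y = y) ∧ y ∈ v.toValuationSubring := by
    rcases v.toValuationSubring.mem_or_inv_mem y₀ with h | h
    · exact ⟨y₀, hy₀, hfin₀, hfix₀, h⟩
    · have hy' := Fermat.Agent.S24.A564.transcendental_inv hy₀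
      have := hfin₀
      exact ⟨y₀⁻¹, hy', Fermat.Agent.S24.A564.finiteDimensional_adjoin_of_transcendental y₀ y₀⁻¹
        hy₀ hy', fun σ => by rw [smul_inv'', hfix₀ σ], h⟩
  have := hfin
  obtain ⟨c, Z, fs, hsep, hcore⟩ := exists_separating_data y hy v hyv
  have key : ∀ w ∈ Z, ∃ K : IntermediateField ℚ Qb, FiniteDimensional ℚ K ∧
      ∀ σ ∈ K.fixingSubgroup, arithmeticGalois F₀ σ • fs w = fs w :=
    fun w _ => exists_fixing_elem F₀ (fs w)
  obtain ⟨K₁, hK₁, h₁⟩ := exists_fixing_finset Z _ key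
  obtain ⟨K₂, hK₂, h₂⟩ := exists_fixing_const c
  obtain ⟨K, hK, h⟩ := exists_fixing_and ⟨K₁, hK₁, h₁⟩ ⟨K₂, hK₂, h₂⟩
  refine ⟨K, hK, fun σ hσ => ?_⟩
  obtain ⟨hσ₁, hσ₂⟩ := h σ hσ
  exact hcore (arithmeticGalois F₀ σ) (hfix σ) hσ₂ fun w hw _ => hσ₁ w hw

/-- Every divisor is fixed by an open subgroup of `G_ℚ`. -/
theorem exists_fixing_divisor (D : Divisor Qb ↥(laurentBaseChange Qb F₀)) :
    ∃ K : IntermediateField ℚ Qb, FiniteDimensional ℚ K ∧
      ∀ σ ∈ K.fixingSubgroup, arithmeticGalois F₀ σ • D = D := by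
  obtain ⟨K, hK, h⟩ := exists_fixing_finset D.support
    (fun v σ => arithmeticGalois F₀ σ • v = v) (fun v _ => exists_fixing_place F₀ v)
  exact ⟨K, hK, fun σ hσ => smul_divisor_eq_self _ D (h σ hσ)⟩

/-- Every class in `Pic⁰` is fixed by an open subgroup of `G_ℚ`. -/
theorem exists_fixing_pic0 (x : Pic0 Qb ↥(laurentBaseChange Qb F₀)) :
    ∃ K : IntermediateField ℚ Qb, FiniteDimensional ℚ K ∧
      ∀ σ ∈ K.fixingSubgroup, σ • x = x := by
  obtain ⟨D, rfl⟩ := Pic0.mk_surjective x
  obtain ⟨K, hK, h⟩ := exists_fixing_divisor F₀ (D : Divisor Qb ↥(laurentBaseChange Qb F₀))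
  refine ⟨K, hK, fun σ hσ => ?_⟩
  rw [galois_smul_pic0_def]
  exact smul_pic0_mk_eq_self _ D (h σ hσ)

/-- A finite set of classes is fixed pointwise by an open subgroup of `G_ℚ`. -/
theorem exists_fixing_pic0_finite (S : Set (Pic0 Qb ↥(laurentBaseChange Qb F₀))) (hS : S.Finite) :
    ∃ K : IntermediateField ℚ Qb, FiniteDimensional ℚ K ∧
      ∀ σ ∈ K.fixingSubgroup, ∀ x ∈ S, σ • x = x := by
  obtain ⟨K, hK, h⟩ := exists_fixing_finset hS.toFinset
    (fun x σ => σ • x = x) (fun x _ => exists_fixing_pic0 F₀ x)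
  exact ⟨K, hK, fun σ hσ x hx => h σ hσ x (hS.mem_toFinset.mpr hx)⟩

end Places

end Fermat.Agent.S17.BR.H1236
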