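import Mathlib
import Fermat.Prelude.Def_ModularCurve_ArithmeticGalois
import Fermat.Prelude.Def_AlgebraicCurve_IsCurveOver

/-!
# S17 package BR (helper1236): the place `q = 0` of `FBar F₀ = laurentBaseChange L F₀`

For ANY `F₀ ⊆ ℚ((q))` and any field `L ⊇ ℚ` (in the application `L = ℚ̄`):
* `qOrd F₀ f`            : the `q`-order of the Laurent series `f` (a valuation: `qOrd_mul`,
                           `min_qOrd_le_add`, `qOrd_inv`, `qOrd_algebraMap = 0`);
* `qOrd_arithmeticRingAut` : the arithmetic Galois action preserves the `q`-order;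
* `qSubring L F₀`        : the valuation subring `{f | 0 ≤ qOrd f}`; it is a PID as soon as it is
                           not everything (`isPrincipalIdealRing_qSubring`, unconditional);
* `qPlace F₀ : Place L (FBar F₀)` under `[IsCurveOver L (FBar F₀)]`, with
  `mem_qPlace_iff`, `smul_qPlace` (fixed by every `arithmeticGalois F₀ σ`), `qPlace_deg = 1`
  (`L` algebraically closed), `exists_qOrd_eq_mul_ord` (`qOrd = e * ord`, `e > 0`) and
  `qPlace_ord_eq_qOrd` (`e = 1` if some element has `q`-order `-1`).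
Imports: Mathlib + Prelude only.
-/

set_option autoImplicit false

open ModularCurve AlgebraicCurve IntermediateField

namespace Fermat.Agent.S17.BR.H1236

section QPlace

variable {L : Type*} [Field L] [Algebra ℚ L]
variable (F₀ : IntermediateField ℚ (LaurentSeries ℚ))

/-- The `q`-adic order of an element of the base-changed function field. -/
noncomputable def qOrd (f : ↥(laurentBaseChange L F₀)) : ℤ := (f : LaurentSeries L).order

variable {F₀}

@[simp] theorem qOrd_zero : qOrd (L := L) F₀ 0 = 0 := by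
  simp [qOrd]

@[simp] theorem qOrd_one : qOrd (L := L) F₀ 1 = 0 := by
  simp [qOrd]

theorem coe_ne_zero {f : ↥(laurentBaseChange L F₀)} (hf : f ≠ 0) : (f : LaurentSeries L) ≠ 0 := by
  simpa using hf

theorem qOrd_mul {f g : ↥(laurentBaseChange L F₀)} (hf : f ≠ 0) (hg : g ≠ 0) :
    qOrd F₀ (f * g) = qOrd F₀ f + qOrd F₀ g := by
  show ((f : LaurentSeries L) * (g : LaurentSeries L)).order = _
  exact HahnSeries.order_mul (coe_ne_zero hf) (coe_ne_zero hg)

theorem qOrd_inv (f : ↥(laurentBaseChange L F₀)) : qOrd F₀ f⁻¹ = - qOrd F₀ f := by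
  rcases eq_or_ne f 0 with rfl | hf
  · simp
  have h := qOrd_mul hf (inv_ne_zero hf)
  rw [mul_inv_cancel₀ hf, qOrd_one] at h
  omega

theorem qOrd_neg (f : ↥(laurentBaseChange L F₀)) : qOrd F₀ (-f) = qOrd F₀ f := by
  show (-(f : LaurentSeries L)).order = _
  exact HahnSeries.order_neg

theorem min_qOrd_le_add {f g : ↥(laurentBaseChange L F₀)} (h : f + g ≠ 0) :
    min (qOrd F₀ f) (qOrd F₀ g) ≤ qOrd F₀ (f + g) := by
  show _ ≤ ((f : LaurentSeries L) + (g : LaurentSeries L)).order
  exact HahnSeries.min_order_le_order_add (coe_ne_zero h)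

theorem coe_algebraMap_eq_single (c : L) :
    ((algebraMap L ↥(laurentBaseChange L F₀) c : ↥(laurentBaseChange L F₀)) : LaurentSeries L)
      = HahnSeries.single 0 c :=
  algebraMap_laurentSeries_eq_single L c

theorem qOrd_algebraMap (c : L) : qOrd F₀ (algebraMap L ↥(laurentBaseChange L F₀) c) = 0 := by
  rw [qOrd, coe_algebraMap_eq_single]
  rcases eq_or_ne c 0 with rfl | hc
  · simp
  · exact HahnSeries.order_single hc

/-- The arithmetic Galois action preserves the `q`-order. -/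
theorem qOrd_arithmeticRingAut (σ : L ≃ₐ[ℚ] L) (f : ↥(laurentBaseChange L F₀)) :
    qOrd F₀ (arithmeticRingAut F₀ σ f) = qOrd F₀ f := by
  rcases eq_or_ne f 0 with rfl | hf
  · simp
  have hf' : (f : LaurentSeries L) ≠ 0 := coe_ne_zero hf
  have hg' : coeffMap (σ : L →+* L) (f : LaurentSeries L) ≠ 0 := by
    intro h
    apply hf'
    ext k
    have := congrArg (fun x : LaurentSeries L => x.coeff k) h
    simpa using this
  show (coeffMap (σ : L →+* L) (f : LaurentSeries L)).order = (f : LaurentSeries L).order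
  have hsupp : (coeffMap (σ : L →+* L) (f : LaurentSeries L)).support
      = (f : LaurentSeries L).support := by
    ext k
    simp [HahnSeries.mem_support]
  rw [HahnSeries.order_of_ne hg', HahnSeries.order_of_ne hf']
  simp only [hsupp]

variable (L F₀)

/-- The valuation subring of `q`-integral elements (no polar part). -/
noncomputable def qSubring : ValuationSubring ↥(laurentBaseChange L F₀) where
  carrier := {f | 0 ≤ qOrd F₀ f}
  mul_mem' := by
    intro a b ha hb
    simp only [Set.mem_ofPred_eq] at *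
    rcases eq_or_ne a 0 with rfl | ha0
    · simp
    rcases eq_or_ne b 0 with rfl | hb0
    · simp
    rw [qOrd_mul ha0 hb0]
    omega
  one_mem' := by simp
  add_mem' := by
    intro a b ha hb
    simp only [Set.mem_ofPred_eq] at *
    rcases eq_or_ne (a + b) 0 with h | h
    · simp [h]
    have := min_qOrd_le_add h
    omega
  zero_mem' := by simp
  neg_mem' := by
    intro a ha
    simp only [Set.mem_ofPred_eq] at *
    rwa [qOrd_neg]
  mem_or_inv_mem' := by
    intro a
    simp only [Set.mem_ofPred_eq]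
    rw [qOrd_inv]
    omega

variable {L F₀}

theorem mem_qSubring_iff {f : ↥(laurentBaseChange L F₀)} :
    f ∈ qSubring L F₀ ↔ 0 ≤ qOrd F₀ f := Iff.rfl

theorem algebraMap_mem_qSubring (c : L) :
    algebraMap L ↥(laurentBaseChange L F₀) c ∈ qSubring L F₀ := by
  rw [mem_qSubring_iff, qOrd_algebraMap]

/-- A non-constant element produces an element of nonzero `q`-order. -/
theorem exists_qOrd_ne_zero (h : ∃ f : ↥(laurentBaseChange L F₀),
    f ∉ Set.range (algebraMap L ↥(laurentBaseChange L F₀))) :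
    ∃ g : ↥(laurentBaseChange L F₀), g ≠ 0 ∧ qOrd F₀ g ≠ 0 := by
  obtain ⟨f, hf⟩ := h
  set c : L := (f : LaurentSeries L).coeff 0 with hc
  refine ⟨f - algebraMap L _ c, ?_, ?_⟩
  · intro h0
    exact hf ⟨c, (sub_eq_zero.mp h0).symm⟩
  · intro h0
    have hg : f - algebraMap L ↥(laurentBaseChange L F₀) c ≠ 0 := by
      intro h1
      exact hf ⟨c, (sub_eq_zero.mp h1).symm⟩
    have h1 : ((f - algebraMap L ↥(laurentBaseChange L F₀) c : ↥(laurentBaseChange L F₀)) :
        LaurentSeries L).coeff ((f - algebraMap L ↥(laurentBaseChange L F₀) c :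
        ↥(laurentBaseChange L F₀)) : LaurentSeries L).order ≠ 0 :=
      fun h => coe_ne_zero hg (HahnSeries.coeff_order_eq_zero.mp h)
    rw [show ((f - algebraMap L ↥(laurentBaseChange L F₀) c : ↥(laurentBaseChange L F₀)) :
        LaurentSeries L).order = 0 from h0] at h1
    apply h1
    show ((f : LaurentSeries L) - ((algebraMap L ↥(laurentBaseChange L F₀) c :
      ↥(laurentBaseChange L F₀)) : LaurentSeries L)).coeff 0 = 0
    rw [coe_algebraMap_eq_single, HahnSeries.coeff_sub, HahnSeries.coeff_single_same, hc, sub_self]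

theorem qSubring_ne_top (h : ∃ f : ↥(laurentBaseChange L F₀),
    f ∉ Set.range (algebraMap L ↥(laurentBaseChange L F₀))) :
    qSubring L F₀ ≠ ⊤ := by
  obtain ⟨g, hg0, hg⟩ := exists_qOrd_ne_zero h
  intro htop
  have h1 : g ∈ qSubring L F₀ := htop ▸ ValuationSubring.mem_top g
  have h2 : g⁻¹ ∈ qSubring L F₀ := htop ▸ ValuationSubring.mem_top g⁻¹
  rw [mem_qSubring_iff] at h1 h2
  rw [qOrd_inv] at h2
  omega

theorem isUnit_of_qOrd_eq_zero {x : qSubring L F₀} (hx0 : x ≠ 0)
    (h : qOrd F₀ (x : ↥(laurentBaseChange L F₀)) = 0) : IsUnit x := by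
  have hmem : ((x : ↥(laurentBaseChange L F₀)))⁻¹ ∈ qSubring L F₀ := by
    rw [mem_qSubring_iff, qOrd_inv, h]; simp
  refine IsUnit.of_mul_eq_one (⟨_, hmem⟩ : qSubring L F₀) ?_
  apply Subtype.ext
  show (x : ↥(laurentBaseChange L F₀)) * (x : ↥(laurentBaseChange L F₀))⁻¹ = 1
  exact mul_inv_cancel₀ (by simpa using hx0)

theorem wfDvdMonoid_qSubring : WfDvdMonoid (qSubring L F₀) := by
  classical
  let μ : qSubring L F₀ → ℕ∞ := fun a =>
    if a = 0 then ⊤ else ((qOrd F₀ (a : ↥(laurentBaseChange L F₀))).toNat : ℕ∞)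
  refine ⟨Subrelation.wf (r := InvImage (· < ·) μ) ?_ (InvImage.wf μ wellFounded_lt)⟩
  rintro a b ⟨ha0, x, hx, rfl⟩
  show μ a < μ (a * x)
  rcases eq_or_ne x 0 with rfl | hx0
  · simp [μ, ha0]
  have hax : a * x ≠ 0 := mul_ne_zero ha0 hx0
  simp only [μ, if_neg ha0, if_neg hax]
  have ha : 0 ≤ qOrd F₀ (a : ↥(laurentBaseChange L F₀)) := a.2
  have hxn : 0 ≤ qOrd F₀ (x : ↥(laurentBaseChange L F₀)) := x.2
  have hx1 : qOrd F₀ (x : ↥(laurentBaseChange L F₀)) ≠ 0 := fun h =>
    hx (isUnit_of_qOrd_eq_zero hx0 h)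
  have hmul : qOrd F₀ ((a * x : qSubring L F₀) : ↥(laurentBaseChange L F₀))
      = qOrd F₀ (a : ↥(laurentBaseChange L F₀)) + qOrd F₀ (x : ↥(laurentBaseChange L F₀)) :=
    qOrd_mul (by simpa using ha0) (by simpa using hx0)
  rw [hmul]
  exact_mod_cast (by omega : (qOrd F₀ (a : ↥(laurentBaseChange L F₀))).toNat
    < (qOrd F₀ (a : ↥(laurentBaseChange L F₀)) + qOrd F₀ (x : ↥(laurentBaseChange L F₀))).toNat)

theorem isPrincipalIdealRing_qSubring : IsPrincipalIdealRing (qSubring L F₀) :=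
  (IsBezout.TFAE.out 3 1).mp wfDvdMonoid_qSubring

theorem qOrd_pow (f : ↥(laurentBaseChange L F₀)) (n : ℕ) : qOrd F₀ (f ^ n) = n * qOrd F₀ f := by
  rcases eq_or_ne f 0 with rfl | hf
  · rcases Nat.eq_zero_or_pos n with rfl | hn
    · simp
    · simp [zero_pow hn.ne']
  induction n with
  | zero => simp
  | succ n ih =>
    rw [pow_succ, qOrd_mul (pow_ne_zero n hf) hf, ih]
    push_cast
    ring

theorem qOrd_zpow (f : ↥(laurentBaseChange L F₀)) (n : ℤ) : qOrd F₀ (f ^ n) = n * qOrd F₀ f := by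
  obtain ⟨m, rfl | rfl⟩ := n.eq_nat_or_neg
  · rw [zpow_natCast, qOrd_pow]
  · rw [zpow_neg, zpow_natCast, qOrd_inv, qOrd_pow]
    ring

theorem qOrd_eq_zero_of_isUnit {x : qSubring L F₀} (hx : IsUnit x) :
    qOrd F₀ (x : ↥(laurentBaseChange L F₀)) = 0 := by
  obtain ⟨u, rfl⟩ := hx
  have h1 : 0 ≤ qOrd F₀ ((u : qSubring L F₀) : ↥(laurentBaseChange L F₀)) := (u : qSubring L F₀).2
  have h2 : 0 ≤ qOrd F₀ (((u⁻¹ : (qSubring L F₀)ˣ) : qSubring L F₀) : ↥(laurentBaseChange L F₀)) :=
    ((u⁻¹ : (qSubring L F₀)ˣ) : qSubring L F₀).2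
  have h3 : (((u⁻¹ : (qSubring L F₀)ˣ) : qSubring L F₀) : ↥(laurentBaseChange L F₀))
      = ((u : qSubring L F₀) : ↥(laurentBaseChange L F₀))⁻¹ := by
    apply eq_inv_of_mul_eq_one_left
    exact congrArg (Subtype.val) (u.inv_mul)
  rw [h3, qOrd_inv] at h2
  omega

end QPlace

section Generic

open KaehlerDifferential

theorem exists_not_mem_range_of_finrank_kaehler {K F : Type*} [Field K] [Field F] [Algebra K F]
    (h : Module.finrank F Ω[F⁄K] = 1) : ∃ f : F, f ∉ Set.range (algebraMap K F) := by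
  by_contra hcon
  push Not at hcon
  have hD : ∀ f : F, KaehlerDifferential.D K F f = 0 := fun f => by
    obtain ⟨c, rfl⟩ := hcon f
    exact Derivation.map_algebraMap _ c
  have htop : (⊤ : Submodule F Ω[F⁄K]) = ⊥ := by
    rw [← KaehlerDifferential.span_range_derivation, Submodule.span_eq_bot]
    rintro _ ⟨f, rfl⟩
    exact hD f
  have hsub : Subsingleton Ω[F⁄K] := by
    refine ⟨fun a b => ?_⟩
    have ha : a ∈ (⊥ : Submodule F Ω[F⁄K]) := htop ▸ Submodule.mem_top
    have hb : b ∈ (⊥ : Submodule F Ω[F⁄K]) := htop ▸ Submodule.mem_top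
    rw [Submodule.mem_bot] at ha hb
    rw [ha, hb]
  rw [Module.finrank_zero_of_subsingleton] at h
  exact zero_ne_one h

end Generic

section ThePlace

variable {L : Type*} [Field L] [Algebra ℚ L]
variable (F₀ : IntermediateField ℚ (LaurentSeries ℚ))

theorem exists_not_mem_range_of_isCurveOver [IsCurveOver L ↥(laurentBaseChange L F₀)] :
    ∃ f : ↥(laurentBaseChange L F₀),
      f ∉ Set.range (algebraMap L ↥(laurentBaseChange L F₀)) :=
  exists_not_mem_range_of_finrank_kaehler IsCurveOver.finrank_kaehler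

/-- The place `q = 0` of the base-changed function field. -/
noncomputable def qPlace [IsCurveOver L ↥(laurentBaseChange L F₀)] :
    Place L ↥(laurentBaseChange L F₀) where
  toValuationSubring := qSubring L F₀
  algebraMap_mem' := algebraMap_mem_qSubring
  ne_top' := qSubring_ne_top (exists_not_mem_range_of_isCurveOver F₀)
  isPrincipalIdealRing' := isPrincipalIdealRing_qSubring

variable [IsCurveOver L ↥(laurentBaseChange L F₀)]

theorem qPlace_toValuationSubring : (qPlace (L := L) F₀).toValuationSubring = qSubring L F₀ := rfl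

theorem mem_qPlace_iff (f : ↥(laurentBaseChange L F₀)) :
    f ∈ (qPlace (L := L) F₀).toValuationSubring ↔ 0 ≤ qOrd F₀ f := Iff.rfl

/-- The place `q = 0` is fixed by the arithmetic Galois action. -/
theorem smul_qPlace (σ : L ≃ₐ[ℚ] L) :
    arithmeticGalois F₀ σ • qPlace (L := L) F₀ = qPlace F₀ := by
  apply Place.ext
  rw [SemilinearAut.smul_toValuationSubring]
  ext x
  rw [ValuationSubring.mem_pointwise_smul_iff_inv_smul_mem, ← map_inv]
  show 0 ≤ qOrd F₀ (arithmeticRingAut F₀ σ⁻¹ x) ↔ 0 ≤ qOrd F₀ x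
  rw [qOrd_arithmeticRingAut]

theorem qPlace_deg [IsAlgClosed L] : (qPlace (L := L) F₀).deg = 1 :=
  IsCurveOver.deg_eq_one_of_isAlgClosed _

/-- The `q`-order is a positive multiple of the normalised order at the place `q = 0`. -/
theorem exists_qOrd_eq_mul_ord :
    ∃ e : ℕ, 0 < e ∧ ∀ f : ↥(laurentBaseChange L F₀),
      qOrd F₀ f = e * (qPlace (L := L) F₀).ord f := by
  obtain ⟨π, hπ⟩ := IsDiscreteValuationRing.exists_irreducible
    (qPlace (L := L) F₀).toValuationSubring
  have hπ0 : π ≠ 0 := hπ.ne_zero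
  have hπn : 0 ≤ qOrd F₀ (π : ↥(laurentBaseChange L F₀)) := π.2
  have hπ1 : qOrd F₀ (π : ↥(laurentBaseChange L F₀)) ≠ 0 := fun h =>
    hπ.not_isUnit (isUnit_of_qOrd_eq_zero (x := π) hπ0 h)
  refine ⟨(qOrd F₀ (π : ↥(laurentBaseChange L F₀))).toNat, by omega, fun f => ?_⟩
  rcases eq_or_ne f 0 with rfl | hf
  · simp
  obtain ⟨u, hu⟩ := (qPlace (L := L) F₀).exists_unit_mul_zpow hf hπ
  have hu0 : ((u : (qPlace (L := L) F₀).toValuationSubring) : ↥(laurentBaseChange L F₀)) ≠ 0 := by
    simp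
  have hπF : (π : ↥(laurentBaseChange L F₀)) ≠ 0 := by simpa using hπ0
  conv_lhs => rw [hu]
  rw [qOrd_mul hu0 (zpow_ne_zero _ hπF), qOrd_zpow,
    qOrd_eq_zero_of_isUnit (x := (u : (qPlace (L := L) F₀).toValuationSubring)) u.isUnit,
    Int.toNat_of_nonneg hπn]
  ring

/-- If some element has `q`-order `-1` (e.g. `j`), the `q`-order is the order at `q = 0`. -/
theorem qPlace_ord_eq_qOrd (h : ∃ f : ↥(laurentBaseChange L F₀), qOrd F₀ f = -1)
    (f : ↥(laurentBaseChange L F₀)) : (qPlace (L := L) F₀).ord f = qOrd F₀ f := by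
  obtain ⟨e, he, hef⟩ := exists_qOrd_eq_mul_ord (L := L) F₀
  obtain ⟨j, hj⟩ := h
  have h1 := hef j
  rw [hj] at h1
  have he1 : (e : ℤ) = 1 := by
    have hdvd : (e : ℤ) ∣ 1 := ⟨-(qPlace (L := L) F₀).ord j, by linarith⟩
    exact Int.eq_one_of_dvd_one (by omega) hdvd
  rw [hef f, he1, one_mul]

end ThePlace

end Fermat.Agent.S17.BR.H1236
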